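import Mathlib
import Fermat.Agent.P2.Sel.Defs

/-!
# P2, block 2b (dictionary): the alternating form of a plane over `𝔽₂`
-/

set_option autoImplicit false
set_option linter.unusedSectionVars false

noncomputable section

namespace Fermat.Agent.P2.Dict

variable {V : Type} [AddCommGroup V] [Module (ZMod 2) V]

open Classical in
/-- the alternating form of a plane over `𝔽₂` -/
def br (x y : V) : ZMod 2 := if x = 0 ∨ y = 0 ∨ x = y then 0 else 1

theorem br_zero_left (y : V) : br 0 y = 0 := if_pos (Or.inl rfl)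

theorem br_zero_right (x : V) : br x 0 = 0 := if_pos (Or.inr (Or.inl rfl))

theorem br_self (x : V) : br x x = 0 := if_pos (Or.inr (Or.inr rfl))

theorem br_comm (x y : V) : br x y = br y x := by
  unfold br
  congr 1
  apply propext
  constructor
  · rintro (h | h | h)
    · exact Or.inr (Or.inl h)
    · exact Or.inl h
    · exact Or.inr (Or.inr h.symm)
  · rintro (h | h | h)
    · exact Or.inr (Or.inl h)
    · exact Or.inl h
    · exact Or.inr (Or.inr h.symm)

theorem br_map {W : Type} [AddCommGroup W] [Module (ZMod 2) W] {A : V → W}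
    (hA : Function.Injective A) (h0 : A 0 = 0) (x y : V) : br (A x) (A y) = br x y := by
  unfold br
  congr 1
  apply propext
  rw [hA.eq_iff, ← h0, hA.eq_iff, hA.eq_iff]

theorem br_eq_one_iff (x y : V) : br x y = 1 ↔ x ≠ 0 ∧ y ≠ 0 ∧ x ≠ y := by
  unfold br
  split_ifs with h
  · constructor
    · intro h'
      exact absurd h' (by decide)
    · rintro ⟨h1, h2, h3⟩
      rcases h with h | h | h
      · exact absurd h h1
      · exact absurd h h2
      · exact absurd h h3
  · refine ⟨fun _ => ⟨fun h1 => h (Or.inl h1), fun h1 => h (Or.inr (Or.inl h1)),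
      fun h1 => h (Or.inr (Or.inr h1))⟩, fun _ => rfl⟩

theorem zmod2_cases (a : ZMod 2) : a = 0 ∨ a = 1 := by
  revert a; decide

theorem br_eq_zero_iff (x y : V) : br x y = 0 ↔ x = 0 ∨ y = 0 ∨ x = y := by
  constructor
  · intro h
    by_contra hc
    have h1 : br x y = 1 := by
      rw [br_eq_one_iff]
      push Not at hc
      exact hc
    rw [h1] at h
    exact absurd h (by decide)
  · intro h
    exact if_pos h

/-- the model -/
def brM (x y : Fin 2 → ZMod 2) : ZMod 2 := if x = 0 ∨ y = 0 ∨ x = y then 0 else 1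

theorem brM_add (x x' y : Fin 2 → ZMod 2) : brM (x + x') y = brM x y + brM x' y := by
  revert x x' y
  decide

theorem brM_sum (x : Fin 2 → ZMod 2) : ∑ e, brM x e = 0 := by
  revert x
  decide

theorem br_eq_brM (x y : Fin 2 → ZMod 2) : br x y = brM x y := by
  unfold br brM
  congr 1

section two

variable (hV : Module.finrank (ZMod 2) V = 2)

include hV

theorem finite_V : Module.Finite (ZMod 2) V := Module.finite_of_finrank_eq_succ hV

theorem finite_V' : Finite V := by
  have := finite_V hV
  exact Module.finite_of_finite (ZMod 2)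

/-- coordinates -/
theorem exists_equiv : Nonempty (V ≃ₗ[ZMod 2] (Fin 2 → ZMod 2)) := by
  have := finite_V hV
  exact ⟨LinearEquiv.ofFinrankEq _ _ (by rw [hV, Module.finrank_fin_fun])⟩

theorem br_add_left (x x' y : V) : br (x + x') y = br x y + br x' y := by
  obtain ⟨e⟩ := exists_equiv hV
  rw [← br_map e.injective (map_zero e) (x + x') y, ← br_map e.injective (map_zero e) x y,
    ← br_map e.injective (map_zero e) x' y, map_add, br_eq_brM, br_eq_brM, br_eq_brM, brM_add]

theorem br_add_right (x y y' : V) : br x (y + y') = br x y + br x y' := by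
  rw [br_comm, br_add_left hV, br_comm y x, br_comm y' x]

theorem card_V : Nat.card V = 4 := by
  obtain ⟨e⟩ := exists_equiv hV
  rw [Nat.card_congr e.toEquiv]
  simp

/-- nondegeneracy -/
theorem eq_zero_of_br {x : V} (h : ∀ e : V, br x e = 0) : x = 0 := by
  obtain ⟨f⟩ := exists_equiv hV
  have h1 : ∀ y : Fin 2 → ZMod 2, (∀ e, brM y e = 0) → y = 0 := by decide
  have h2 : f x = 0 := by
    apply h1
    intro e
    rw [← br_eq_brM, ← f.apply_symm_apply e, br_map f.injective (map_zero f), h]
  exact (map_eq_zero_iff f f.injective).mp h2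

/-- given `e ≠ 0`, the other two nonzero vectors -/
theorem exists_others {e : V} (he : e ≠ 0) : ∃ a : V, a ≠ 0 ∧ a ≠ e ∧ a + e ≠ 0 ∧ a + e ≠ e ∧
    a + e ≠ a ∧ ∀ x : V, x = 0 ∨ x = e ∨ x = a ∨ x = a + e := by
  obtain ⟨f⟩ := exists_equiv hV
  have h1 : ∀ y : Fin 2 → ZMod 2, y ≠ 0 → ∃ a : Fin 2 → ZMod 2, a ≠ 0 ∧ a ≠ y ∧ a + y ≠ 0 ∧
      a + y ≠ y ∧ a + y ≠ a ∧ ∀ x : Fin 2 → ZMod 2, x = 0 ∨ x = y ∨ x = a ∨ x = a + y := by decide
  obtain ⟨a, h2, h3, h4, h5, h6, h7⟩ := h1 (f e) ((map_ne_zero_iff f f.injective).mpr he)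
  have hfe : f (f.symm a + e) = a + f e := by rw [map_add, f.apply_symm_apply]
  refine ⟨f.symm a, ?_, ?_, ?_, ?_, ?_, ?_⟩
  · intro h; apply h2; rw [← f.apply_symm_apply a, h, map_zero]
  · intro h; apply h3; rw [← f.apply_symm_apply a, h]
  · intro h; apply h4; rw [← hfe, h, map_zero]
  · intro h; apply h5; rw [← hfe, h]
  · intro h; apply h6; rw [← hfe, h, f.apply_symm_apply]
  · intro x
    rcases h7 (f x) with h | h | h | h
    · left; exact (map_eq_zero_iff f f.injective).mp h
    · right; left; exact f.injective h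
    · right; right; left; rw [← h, f.symm_apply_apply]
    · right; right; right; apply f.injective; rw [h, hfe]

end two

/-- the sign `(-1)^a` -/
def sg {Ω : Type} [Field Ω] (a : ZMod 2) : Ω := if a = 0 then 1 else -1

section sg

variable {Ω : Type} [Field Ω]

@[simp] theorem sg_zero : (sg 0 : Ω) = 1 := if_pos rfl

@[simp] theorem sg_one : (sg 1 : Ω) = -1 := if_neg (by decide)

theorem sg_add (a b : ZMod 2) : (sg (a + b) : Ω) = sg a * sg b := by
  rcases zmod2_cases a with rfl | rfl <;> rcases zmod2_cases b with rfl | rfl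
  · simp
  · simp
  · simp
  · rw [show (1 : ZMod 2) + 1 = 0 by decide, sg_zero, sg_one]; ring

theorem sg_mul_self (a : ZMod 2) : (sg a : Ω) * sg a = 1 := by
  rcases zmod2_cases a with rfl | rfl
  · simp
  · simp

theorem sg_ne_zero (a : ZMod 2) : (sg a : Ω) ≠ 0 := by
  intro h
  have := sg_mul_self (Ω := Ω) a
  rw [h, mul_zero] at this
  exact zero_ne_one this

theorem map_sg {F : Type*} [FunLike F Ω Ω] [RingHomClass F Ω Ω] (f : F) (a : ZMod 2) :
    f (sg a) = sg a := by
  rcases zmod2_cases a with rfl | rfl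
  · rw [sg_zero, map_one]
  · rw [sg_one, map_neg, map_one]

theorem sg_eq_one_iff [CharZero Ω] (a : ZMod 2) : (sg a : Ω) = 1 ↔ a = 0 := by
  constructor
  · intro h
    rcases zmod2_cases a with rfl | rfl
    · rfl
    · rw [sg_one] at h
      exfalso
      norm_num at h
  · rintro rfl
    exact sg_zero

end sg

end Fermat.Agent.P2.Dict
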