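import Mathlib
import Fermat.Agent.P2.Dict.Form

/-!
# P2, block 2b (dictionary): the square roots attached to a cocycle
-/

set_option autoImplicit false
set_option linter.unusedSectionVars false

noncomputable section

namespace Fermat.Agent.P2.Dict

open Fermat.Agent.P2.Sel

local notation "Ω" => AlgebraicClosure ℚ

variable {V : Type} [AddCommGroup V] [Module (ZMod 2) V]
variable {ρ : Representation (ZMod 2) GQ V} {S : Finset ℕ}

theorem rho_mul_apply (ρ : Representation (ZMod 2) GQ V) (g h : GQ) (x : V) :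
    ρ (g * h) x = ρ g (ρ h x) := by
  rw [map_mul]; rfl

theorem rho_inv_apply (ρ : Representation (ZMod 2) GQ V) (g : GQ) (x : V) :
    ρ g⁻¹ (ρ g x) = x := by
  rw [← rho_mul_apply, inv_mul_cancel, map_one]; rfl

theorem rho_apply_inv (ρ : Representation (ZMod 2) GQ V) (g : GQ) (x : V) :
    ρ g (ρ g⁻¹ x) = x := by
  rw [← rho_mul_apply, mul_inv_cancel, map_one]; rfl

theorem rho_injective (ρ : Representation (ZMod 2) GQ V) (g : GQ) :
    Function.Injective (ρ g) := fun x y h => by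
  rw [← rho_inv_apply ρ g x, h, rho_inv_apply]

theorem br_rho (ρ : Representation (ZMod 2) GQ V) (g : GQ) (x y : V) :
    br (ρ g x) (ρ g y) = br x y :=
  br_map (rho_injective ρ g) (map_zero _) x y

theorem rho_ne_zero (ρ : Representation (ZMod 2) GQ V) (g : GQ) {e : V} (he : e ≠ 0) :
    ρ g e ≠ 0 := by
  rw [Ne, map_eq_zero_iff _ (rho_injective ρ g)]
  exact he

/-- the stabilizer of a vector -/
def stab (ρ : Representation (ZMod 2) GQ V) (e : V) : Subgroup GQ where
  carrier := {g | ρ g e = e}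
  mul_mem' := fun {a b} ha hb => by
    have ha' : ρ a e = e := ha
    have hb' : ρ b e = e := hb
    show ρ (a * b) e = e
    rw [rho_mul_apply, hb', ha']
  one_mem' := by
    show ρ 1 e = e
    rw [map_one]; rfl
  inv_mem' := fun {a} ha => by
    have ha' : ρ a e = e := ha
    show ρ a⁻¹ e = e
    conv_lhs => rw [← ha']
    exact rho_inv_apply ρ a e

theorem mem_stab {e : V} {g : GQ} : g ∈ stab ρ e ↔ ρ g e = e := Iff.rfl

theorem isOpen_of_le {H : Subgroup GQ} (L : IntermediateField ℚ Ω) [FiniteDimensional ℚ L]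
    (h : L.fixingSubgroup ≤ H) : IsOpen (H : Set GQ) :=
  Subgroup.isOpen_mono h (IntermediateField.fixingSubgroup_isOpen L)

/-- every sign character of an open subgroup of `G_ℚ` is given by a square root -/
theorem exists_sign (H : Subgroup GQ) (χ : GQ → ZMod 2)
    (hχ : ∀ g ∈ H, ∀ h ∈ H, χ (g * h) = χ g + χ h)
    (L : IntermediateField ℚ Ω) [FiniteDimensional ℚ L] (hL : L.fixingSubgroup ≤ H)
    (hL' : ∀ g ∈ L.fixingSubgroup, χ g = 0) :
    ∃ β : Ω, β ≠ 0 ∧ ∀ h ∈ H, h β = sg (χ h) * β := by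
  have h1 : χ 1 = 0 := hL' 1 (Subgroup.one_mem _)
  have hinv : ∀ g ∈ H, χ g⁻¹ = χ g := by
    intro g hg
    have h2 := hχ g hg g⁻¹ (H.inv_mem hg)
    rw [mul_inv_cancel, h1] at h2
    rcases zmod2_cases (χ g) with h | h <;> rcases zmod2_cases (χ g⁻¹) with h' | h' <;>
      rw [h, h'] at h2 ⊢
    · exact absurd h2 (by decide)
    · exact absurd h2 (by decide)
  let N : Subgroup GQ :=
    { carrier := {g | g ∈ H ∧ χ g = 0}
      mul_mem' := fun {a b} ha hb => ⟨H.mul_mem ha.1 hb.1, by rw [hχ a ha.1 b hb.1, ha.2, hb.2, add_zero]⟩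
      one_mem' := ⟨H.one_mem, h1⟩
      inv_mem' := fun {a} ha => ⟨H.inv_mem ha.1, by rw [hinv a ha.1, ha.2]⟩ }
  have hN : ∀ {g}, g ∈ N ↔ g ∈ H ∧ χ g = 0 := Iff.rfl
  have hLN : L.fixingSubgroup ≤ N := fun g hg => ⟨hL hg, hL' g hg⟩
  have hNo : IsOpen (N : Set GQ) := isOpen_of_le L hLN
  by_cases hall : ∀ h ∈ H, χ h = 0
  · refine ⟨1, one_ne_zero, fun h hh => ?_⟩
    rw [hall h hh, sg_zero, one_mul, map_one]
  · push Not at hall
    obtain ⟨t, htH, ht⟩ := hall
    have ht1 : χ t = 1 := (zmod2_cases (χ t)).resolve_left ht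
    have htN : t ∉ N := fun h => ht h.2
    let Nc : ClosedSubgroup GQ := ⟨N, Subgroup.isClosed_of_isOpen N hNo⟩
    have hfix := InfiniteGalois.fixingSubgroup_fixedField Nc
    have h2 : ∃ x ∈ IntermediateField.fixedField N, t x ≠ x := by
      by_contra hc
      push Not at hc
      apply htN
      have h3 : t ∈ (IntermediateField.fixedField (Nc : Subgroup GQ)).fixingSubgroup := by
        rw [IntermediateField.mem_fixingSubgroup_iff]
        exact hc
      rw [hfix] at h3
      exact h3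
    obtain ⟨x, hx, htx⟩ := h2
    rw [IntermediateField.mem_fixedField_iff] at hx
    have htt : t * t ∈ N := ⟨H.mul_mem htH htH, by rw [hχ t htH t htH, ht1]; decide⟩
    have hNfix : ∀ n ∈ N, n (t x - x) = t x - x := by
      intro n hn
      have h4 : t⁻¹ * n * t ∈ N := by
        refine ⟨H.mul_mem (H.mul_mem (H.inv_mem htH) hn.1) htH, ?_⟩
        rw [hχ _ (H.mul_mem (H.inv_mem htH) hn.1) _ htH, hχ _ (H.inv_mem htH) _ hn.1, hinv t htH,
          hn.2, ht1]
        decide
      have h5 := hx _ h4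
      have h6 : n (t x) = t x := by
        have h7 : n (t x) = t ((t⁻¹ * n * t) x) := by
          rw [← AlgEquiv.mul_apply, ← AlgEquiv.mul_apply]
          congr 1
          group
        rw [h7, h5]
      rw [map_sub, h6, hx n hn]
    refine ⟨t x - x, sub_ne_zero.mpr htx, fun h hh => ?_⟩
    rcases zmod2_cases (χ h) with h8 | h8
    · rw [h8, sg_zero, one_mul]
      exact hNfix h ⟨hh, h8⟩
    · have h9 : t⁻¹ * h ∈ N := by
        refine ⟨H.mul_mem (H.inv_mem htH) hh, ?_⟩
        rw [hχ _ (H.inv_mem htH) _ hh, hinv t htH, ht1, h8]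
        decide
      have h10 : h (t x - x) = t ((t⁻¹ * h) (t x - x)) := by
        rw [← AlgEquiv.mul_apply]
        congr 1
        group
      rw [h10, hNfix _ h9, h8, sg_one, map_sub, ← AlgEquiv.mul_apply, hx _ htt]
      ring

theorem coc_one {w : GQ → V} (hw : IsCoc ρ w) : w 1 = 0 := by
  have h := hw 1 1
  rw [mul_one, map_one] at h
  have h2 : w 1 = w 1 + w 1 := h
  exact (left_eq_add.mp h2)

/-- transitivity on nonzero vectors -/
theorem exists_rho_eq (h : Hyp ρ S) {e e' : V} (he : e ≠ 0) (he' : e' ≠ 0) :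
    ∃ g : GQ, ρ g e = e' := by
  have hV := h.finrank_eq
  have := finite_V hV
  obtain ⟨f⟩ := exists_equiv hV
  have h1 : ∀ y y' : Fin 2 → ZMod 2, y ≠ 0 → y' ≠ 0 →
      ∃ M : Matrix (Fin 2) (Fin 2) (ZMod 2), M.det = 1 ∧ M.mulVec y = y' := by
    decide
  obtain ⟨M, hM, hM'⟩ := h1 (f e) (f e') ((map_ne_zero_iff f f.injective).mpr he)
    ((map_ne_zero_iff f f.injective).mpr he')
  have hdet : IsUnit (Matrix.toLin' M).det := by
    rw [LinearMap.det_toLin', hM]
    exact isUnit_one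
  let A0 := LinearMap.equivOfIsUnitDet (f := Matrix.toLin' M) hdet
  have hA0 : ∀ y, A0 y = Matrix.toLin' M y := fun y => by
    simp [A0]
  let A : V ≃ₗ[ZMod 2] V := (f.trans A0).trans f.symm
  obtain ⟨g, hg⟩ := h.surj A
  refine ⟨g, ?_⟩
  rw [hg]
  change f.symm (A0 (f e)) = e'
  rw [hA0, Matrix.toLin'_apply, hM', f.symm_apply_apply]

/-- `β` is a system of square roots attached to the cocycle `w`. -/
structure IsRoots (ρ : Representation (ZMod 2) GQ V) (w : GQ → V) (β : V → Ω) : Prop where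
  zero : β 0 = 1
  ne : ∀ e, β e ≠ 0
  eqv : ∀ (g : GQ) (e : V), g (β e) = sg (br (w g) (ρ g e)) * β (ρ g e)

/-- **Square roots attached to a cocycle.** -/
theorem exists_beta (h : Hyp ρ S) {w : GQ → V} (hw : IsCoc ρ w) (hl : LevelConst w) :
    ∃ β : V → Ω, IsRoots ρ w β := by
  classical
  have hV := h.finrank_eq
  have hadd := br_add_left hV
  obtain ⟨L1, hL1, hρ⟩ := h.smooth
  obtain ⟨L2, hL2, hw2⟩ := hl
  by_cases hne : ∃ e1 : V, e1 ≠ 0
  swap
  · push Not at hne
    refine ⟨fun _ => 1, rfl, fun _ => one_ne_zero, fun g e => ?_⟩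
    rw [hne (ρ g e), br_zero_right, map_one, sg_zero, mul_one]
  obtain ⟨e1, he1⟩ := hne
  have hL12 : FiniteDimensional ℚ ((L1 ⊔ L2 : IntermediateField ℚ Ω)) :=
    IntermediateField.finiteDimensional_sup L1 L2
  have hfix : ∀ g ∈ (L1 ⊔ L2 : IntermediateField ℚ Ω).fixingSubgroup, ρ g = 1 ∧ w g = 0 := by
    intro g hg
    rw [IntermediateField.mem_fixingSubgroup_iff] at hg
    refine ⟨hρ g fun x hx => hg x ((le_sup_left : L1 ≤ L1 ⊔ L2) hx), ?_⟩
    have h1 := hw2 1 g fun x hx => hg x ((le_sup_right : L2 ≤ L1 ⊔ L2) hx)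
    rwa [one_mul, coc_one hw] at h1
  obtain ⟨b, hb0, hb⟩ := exists_sign (stab ρ e1) (fun g => br (w g) e1)
    (by
      intro g hg k hk
      have hg' : ρ g e1 = e1 := hg
      show br (w (g * k)) e1 = br (w g) e1 + br (w k) e1
      rw [hw g k, hadd]
      congr 1
      conv_lhs => rw [← hg']
      exact br_rho ρ g _ _)
    (L1 ⊔ L2)
    (by
      intro g hg
      rw [mem_stab, (hfix g hg).1]
      rfl)
    (by
      intro g hg
      show br (w g) e1 = 0
      rw [(hfix g hg).2, br_zero_left])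
  have htr : ∀ e : V, ∃ g : GQ, e ≠ 0 → ρ g e1 = e := by
    intro e
    by_cases he : e = 0
    · exact ⟨1, fun h => absurd he h⟩
    · obtain ⟨g, hg⟩ := exists_rho_eq h he1 he
      exact ⟨g, fun _ => hg⟩
  choose t ht using htr
  refine ⟨fun e => if e = 0 then 1 else sg (br (w (t e)) e) * (t e) b, if_pos rfl, fun e => ?_,
    fun g e => ?_⟩
  · by_cases he : e = 0
    · simp only [if_pos he]
      exact one_ne_zero
    · simp only [if_neg he]
      refine mul_ne_zero (sg_ne_zero _) ?_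
      rw [Ne, map_eq_zero_iff _ (t e).injective]
      exact hb0
  · by_cases he : e = 0
    · subst he
      simp [br_zero_right]
    have hge := rho_ne_zero ρ g he
    simp only [if_neg he, if_neg hge]
    set k : GQ := (t (ρ g e))⁻¹ * g * t e with hk
    have hk1 : ρ k e1 = e1 := by
      rw [hk, rho_mul_apply, rho_mul_apply, ht e he]
      calc ρ (t (ρ g e))⁻¹ (ρ g e) = ρ (t (ρ g e))⁻¹ (ρ (t (ρ g e)) e1) := by rw [ht _ hge]
        _ = e1 := rho_inv_apply ρ _ _
    have hb1 : k b = sg (br (w k) e1) * b := hb k hk1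
    have h2 : g * t e = t (ρ g e) * k := by rw [hk]; group
    have h3 : g ((t e) b) = (t (ρ g e)) (k b) := by
      rw [← AlgEquiv.mul_apply, ← AlgEquiv.mul_apply, h2]
    rw [map_mul, map_sg, h3, hb1, map_mul, map_sg]
    -- compare the signs
    have h4 : w (g * t e) = w (t (ρ g e) * k) := by rw [h2]
    rw [hw, hw] at h4
    have h5 : br (w g + ρ g (w (t e))) (ρ g e) =
        br (w (t (ρ g e)) + ρ (t (ρ g e)) (w k)) (ρ g e) := by rw [h4]
    rw [hadd, hadd, br_rho] at h5
    have h6 : br ((ρ (t (ρ g e))) (w k)) (ρ g e) = br (w k) e1 := by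
      calc br ((ρ (t (ρ g e))) (w k)) (ρ g e) =
          br ((ρ (t (ρ g e))) (w k)) (ρ (t (ρ g e)) e1) := by rw [ht _ hge]
        _ = br (w k) e1 := br_rho ρ _ _ _
    rw [h6] at h5
    rw [← mul_assoc, ← mul_assoc]
    congr 1
    rw [← sg_add, ← sg_add]
    congr 1
    have h7 : ∀ a b c d : ZMod 2, a + b = c + d → b + d = a + c := by decide
    exact h7 _ _ _ _ h5

end Fermat.Agent.P2.Dict
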