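import Mathlib
import Fermat.Agent.P2.Dict.Beta

/-!
# P2, block 2b (dictionary): the cubic field and its embeddings
-/

set_option autoImplicit false
set_option linter.unusedSectionVars false

noncomputable section

namespace Fermat.Agent.P2.Dict

open Fermat.Agent.P2.Sel NumberField

local notation "Ω" => AlgebraicClosure ℚ

variable {V : Type} [AddCommGroup V] [Module (ZMod 2) V]
variable {ρ : Representation (ZMod 2) GQ V} {S : Finset ℕ}

/-- the fixed field of the stabilizer of `e` -/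
def cub (ρ : Representation (ZMod 2) GQ V) (e : V) : IntermediateField ℚ Ω :=
  IntermediateField.fixedField (stab ρ e)

theorem mem_cub {e : V} {x : Ω} : x ∈ cub ρ e ↔ ∀ g : GQ, ρ g e = e → g x = x := by
  unfold cub
  rw [IntermediateField.mem_fixedField_iff]
  rfl

theorem isOpen_stab (h : Hyp ρ S) (e : V) : IsOpen (stab ρ e : Set GQ) := by
  obtain ⟨L, hL, hρ⟩ := h.smooth
  refine isOpen_of_le L fun g hg => ?_
  rw [IntermediateField.mem_fixingSubgroup_iff] at hg
  rw [mem_stab, hρ g hg]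
  rfl

theorem fixingSubgroup_cub (h : Hyp ρ S) (e : V) : (cub ρ e).fixingSubgroup = stab ρ e := by
  let Nc : ClosedSubgroup GQ := ⟨stab ρ e, Subgroup.isClosed_of_isOpen _ (isOpen_stab h e)⟩
  exact InfiniteGalois.fixingSubgroup_fixedField Nc

theorem finiteDimensional_cub (h : Hyp ρ S) (e : V) : FiniteDimensional ℚ (cub ρ e) := by
  rw [← InfiniteGalois.isOpen_iff_finite, fixingSubgroup_cub h e]
  exact isOpen_stab h e

/-- an element moving `e1` to `e` -/
theorem exists_mover (h : Hyp ρ S) {e1 : V} (he1 : e1 ≠ 0) (e : V) :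
    ∃ g : GQ, e ≠ 0 → ρ g e1 = e := by
  by_cases he : e = 0
  · exact ⟨1, fun h => absurd he h⟩
  · obtain ⟨g, hg⟩ := exists_rho_eq h he1 he
    exact ⟨g, fun _ => hg⟩

section embeddings

variable (h : Hyp ρ S) {e1 : V} (he1 : e1 ≠ 0)

/-- a chosen element moving `e1` to `e` -/
def mover (e : V) : GQ := (exists_mover h he1 e).choose

theorem mover_spec {e : V} (he : e ≠ 0) : ρ (mover h he1 e) e1 = e :=
  (exists_mover h he1 e).choose_spec he

/-- the embedding of the cubic field attached to `e` -/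
def vemb (e : V) : cub ρ e1 →ₐ[ℚ] Ω := (mover h he1 e : Ω →ₐ[ℚ] Ω).comp (cub ρ e1).val

theorem vemb_apply (e : V) (x : cub ρ e1) : vemb h he1 e x = mover h he1 e x := rfl

theorem apply_eq_of_rho_eq {g g' : GQ} (hg : ρ g e1 = ρ g' e1) {x : Ω} (hx : x ∈ cub ρ e1) :
    g x = g' x := by
  have h1 : (g'⁻¹ * g) x = x := by
    rw [mem_cub] at hx
    apply hx
    rw [rho_mul_apply, hg, rho_inv_apply]
  calc g x = g' ((g'⁻¹ * g) x) := by
        rw [← AlgEquiv.mul_apply, mul_inv_cancel_left]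
    _ = g' x := by rw [h1]

theorem vemb_eq {e : V} (he : e ≠ 0) {g : GQ} (hg : ρ g e1 = e) (x : cub ρ e1) :
    vemb h he1 e x = g x := by
  rw [vemb_apply]
  exact apply_eq_of_rho_eq (by rw [mover_spec h he1 he, hg]) x.2

/-- `g ∘ σ_e = σ_{g e}` -/
theorem apply_vemb {e : V} (he : e ≠ 0) (g : GQ) (x : cub ρ e1) :
    g (vemb h he1 e x) = vemb h he1 (ρ g e) x := by
  rw [vemb_apply, ← AlgEquiv.mul_apply]
  refine (vemb_eq h he1 (rho_ne_zero ρ g he) ?_ x).symm
  rw [rho_mul_apply, mover_spec h he1 he]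

theorem vemb_self (x : cub ρ e1) : vemb h he1 e1 x = x := by
  rw [vemb_eq h he1 he1 (g := 1) (by rw [map_one]; rfl)]
  rfl

theorem vemb_injective {e e' : V} (he : e ≠ 0) (he' : e' ≠ 0)
    (hee : vemb h he1 e = vemb h he1 e') : e = e' := by
  have h1 : (mover h he1 e)⁻¹ * mover h he1 e' ∈ stab ρ e1 := by
    rw [← fixingSubgroup_cub h e1, IntermediateField.mem_fixingSubgroup_iff]
    intro x hx
    have h2 : mover h he1 e x = mover h he1 e' x := DFunLike.congr_fun hee ⟨x, hx⟩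
    rw [AlgEquiv.mul_apply, ← h2]
    exact (mover h he1 e).symm_apply_apply x
  rw [mem_stab, rho_mul_apply, mover_spec h he1 he'] at h1
  calc e = ρ (mover h he1 e) e1 := (mover_spec h he1 he).symm
    _ = ρ (mover h he1 e) (ρ (mover h he1 e)⁻¹ e') := by rw [h1]
    _ = e' := rho_apply_inv ρ _ _

theorem exists_extend (L : IntermediateField ℚ Ω) (σ : L →ₐ[ℚ] Ω) : ∃ g : GQ, ∀ x : L, σ x = g x := by
  let g : Ω →ₐ[ℚ] Ω := σ.liftNormal Ω
  have hg : Function.Bijective g := Algebra.IsAlgebraic.algHom_bijective g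
  refine ⟨AlgEquiv.ofBijective g hg, fun x => ?_⟩
  exact (σ.liftNormal_commutes Ω x).symm

theorem vemb_surjective (σ : cub ρ e1 →ₐ[ℚ] Ω) : ∃ e : V, e ≠ 0 ∧ vemb h he1 e = σ := by
  obtain ⟨g, hg⟩ := exists_extend (cub ρ e1) σ
  refine ⟨ρ g e1, rho_ne_zero ρ g he1, ?_⟩
  ext x
  rw [hg, vemb_eq h he1 (rho_ne_zero ρ g he1) rfl]

/-- embeddings are the nonzero vectors -/
def embEquiv : {e : V // e ≠ 0} ≃ (cub ρ e1 →ₐ[ℚ] Ω) :=
  Equiv.ofBijective (fun e => vemb h he1 e.1)
    ⟨fun a b hab => Subtype.ext (vemb_injective h he1 a.2 b.2 hab), fun σ => by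
      obtain ⟨e, he, h1⟩ := vemb_surjective h he1 σ
      exact ⟨⟨e, he⟩, h1⟩⟩

theorem embEquiv_apply (e : {e : V // e ≠ 0}) : embEquiv h he1 e = vemb h he1 e.1 := rfl

include h he1 in
theorem finrank_cub : Module.finrank ℚ (cub ρ e1) = 3 := by
  classical
  have hfd := finiteDimensional_cub h e1
  have := finite_V' h.finrank_eq
  have := Fintype.ofFinite V
  have h1 : Fintype.card (cub ρ e1 →ₐ[ℚ] Ω) = Module.finrank ℚ (cub ρ e1) := AlgHom.card ℚ _ Ω
  rw [← h1, ← Fintype.card_congr (embEquiv h he1)]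
  have h2 := card_V h.finrank_eq
  rw [Nat.card_eq_fintype_card] at h2
  have h3 : Fintype.card {e : V // e ≠ 0} = Fintype.card V - 1 := by
    have := Fintype.card_subtype_compl (fun e : V => e = 0)
    rw [Fintype.card_subtype_eq] at this
    exact this
  rw [h3, h2]

end embeddings

/-! ### the element attached to a system of roots -/

section alpha

variable {w : GQ → V} {β : V → Ω} (hβ : IsRoots ρ w β)

include hβ

theorem sq_eqv (g : GQ) (e : V) : g (β e ^ 2) = β (ρ g e) ^ 2 := by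
  rw [map_pow, hβ.eqv, mul_pow, sq (sg _), sg_mul_self, one_mul]

theorem sq_mem (e : V) : β e ^ 2 ∈ cub ρ e := by
  rw [mem_cub]
  intro g hg
  rw [sq_eqv hβ, hg]

/-- the element of the cubic field -/
def alph (e1 : V) : cub ρ e1 := ⟨β e1 ^ 2, sq_mem hβ e1⟩

theorem alph_ne_zero (e1 : V) : alph hβ e1 ≠ 0 := by
  intro h
  have h1 := congrArg (Subtype.val) h
  exact pow_ne_zero 2 (hβ.ne e1) h1

theorem vemb_alph (h : Hyp ρ S) {e1 : V} (he1 : e1 ≠ 0) {e : V} (he : e ≠ 0) :
    vemb h he1 e (alph hβ e1) = β e ^ 2 := by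
  rw [vemb_apply]
  have h1 := sq_eqv hβ (mover h he1 e) e1
  rw [mover_spec h he1 he] at h1
  exact h1

theorem prod_fixed (h : Hyp ρ S) [Fintype V] (g : GQ) : g (∏ e, β e) = ∏ e, β e := by
  rw [map_prod]
  have h1 : ∀ e, g (β e) = (fun e' => sg (br (w g) e') * β e') (ρ g e) := fun e => hβ.eqv g e
  rw [Finset.prod_congr rfl fun e _ => h1 e]
  let eq : V ≃ V := ⟨ρ g, ρ g⁻¹, rho_inv_apply ρ g, rho_apply_inv ρ g⟩
  have h2 := Equiv.prod_comp eq (fun e' => sg (br (w g) e') * β e')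
  refine h2.trans ?_
  rw [Finset.prod_mul_distrib]
  have h3 : ∏ e' : V, (sg (br (w g) e') : Ω) = 1 := by
    obtain ⟨f⟩ := exists_equiv h.finrank_eq
    have h4 : ∏ e' : V, (sg (br (w g) e') : Ω) = ∏ y : Fin 2 → ZMod 2, (sg (brM (f (w g)) y) : Ω) := by
      refine Fintype.prod_equiv f.toEquiv _ _ fun x => ?_
      rw [← br_eq_brM]
      change (sg (br (w g) x) : Ω) = sg (br (f (w g)) (f x))
      rw [br_map f.injective (map_zero f)]
    have h5 : ∀ (s : Finset (Fin 2 → ZMod 2)) (F : (Fin 2 → ZMod 2) → ZMod 2),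
        ∏ y ∈ s, (sg (F y) : Ω) = sg (∑ y ∈ s, F y) := by
      classical
      intro s F
      induction s using Finset.induction_on with
      | empty => simp
      | insert a s ha ih => rw [Finset.prod_insert ha, Finset.sum_insert ha, sg_add, ih]
    rw [h4, h5, brM_sum, sg_zero]
  rw [h3, one_mul]

theorem norm_alph (h : Hyp ρ S) {e1 : V} (he1 : e1 ≠ 0) :
    IsSquare (Algebra.norm ℚ (alph hβ e1)) := by
  classical
  have hfd := finiteDimensional_cub h e1
  have := finite_V' h.finrank_eq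
  have := Fintype.ofFinite V
  have h1 : ∃ b : ℚ, algebraMap ℚ Ω b = ∏ e, β e := by
    have h2 : (∏ e, β e) ∈ (IntermediateField.fixedField (⊤ : Subgroup GQ)) := by
      rw [IntermediateField.mem_fixedField_iff]
      intro g _
      exact prod_fixed hβ h g
    rw [InfiniteGalois.fixedField_bot] at h2
    exact h2
  obtain ⟨b, hb⟩ := h1
  refine ⟨b, ?_⟩
  apply (algebraMap ℚ Ω).injective
  rw [Algebra.norm_eq_prod_embeddings ℚ Ω, map_mul, hb,
    ← Fintype.prod_equiv (embEquiv h he1) (fun e => β e.1 ^ 2) _ fun e => ?_]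
  · have h3 : ∏ e : {e : V // e ≠ 0}, β e.1 ^ 2 = ∏ e : V, β e ^ 2 := by
      have h4 := Fintype.prod_subtype_mul_prod_subtype (fun e : V => e ≠ 0) (fun e => β e ^ 2)
      have h5 : ∏ e : {e : V // ¬ e ≠ 0}, β e.1 ^ 2 = 1 := by
        refine Finset.prod_eq_one fun e _ => ?_
        have : e.1 = 0 := not_not.mp e.2
        rw [this, hβ.zero, one_pow]
      rw [h5, mul_one] at h4
      exact h4
    rw [h3, Finset.prod_pow, sq]
  · rw [embEquiv_apply, vemb_alph hβ h he1 e.2]

end alpha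

end Fermat.Agent.P2.Dict
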