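import Mathlib
import Fermat.Agent.P2.Dict.Cubic
import Fermat.Agent.P2.Sel.Drop
import Fermat.Agent.TWP.LocalTransfer
import Fermat.Agent.DR.InertiaValue

/-!
# P2, block 2b (dictionary): local structure
-/

set_option autoImplicit false
set_option linter.unusedSectionVars false

noncomputable section

namespace Fermat.Agent.P2.Dict

open Fermat.Agent.P2.Sel NumberField IsDedekindDomain Pointwise
open Fermat.Agent.CFT.W (emb pl)

local notation "Ω" => AlgebraicClosure ℚ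

variable {V : Type} [AddCommGroup V] [Module (ZMod 2) V]
variable {ρ : Representation (ZMod 2) GQ V} {S : Finset ℕ}

/-- `e` is the fixed vector at `v`. -/
structure LocFix (ρ : Representation (ZMod 2) GQ V) (v : ℕ) [Fact v.Prime] (e : V) : Prop where
  ne : e ≠ 0
  fix : ∀ g ∈ (padicPlace v).decompositionSubgroup ℚ, ρ g e = e
  move : ∃ g ∈ (padicPlace v).decompositionSubgroup ℚ, ρ g ≠ 1

theorem inertia_le_dec (A : ValuationSubring Ω) {g : GQ} (hg : g ∈ A.inertiaSubgroupIn ℚ) :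
    g ∈ A.decompositionSubgroup ℚ :=
  ((TWP.Place.mem_inertiaSubgroupIn_iff A g).mp hg).1

section

variable {v : ℕ} [hv : Fact v.Prime]

theorem lies : (padicPlace v).LiesOverPrime v := CFT.D2.padicPlace_liesOverPrime v

theorem locFix_bad (h : Hyp ρ S) (hvS : v ∈ S) : ∃ e, LocFix ρ v e := by
  obtain ⟨⟨t, ht, ht1⟩, e, he, hfix⟩ := h.ram v hvS (padicPlace v) lies
  exact ⟨e, he, hfix, t, inertia_le_dec _ ht, ht1⟩

theorem locFix_trans (h : Hyp ρ S) (ht : TransFrob ρ S v) : ∃ e, LocFix ρ v e := by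
  obtain ⟨hp, hvS, hT⟩ := ht
  obtain ⟨φ, hφ⟩ := FrobExists.exists_isFrobeniusAt (padicPlace v) hp lies
  obtain ⟨h1, h2⟩ := hT _ lies φ hφ
  have hφD : φ ∈ (padicPlace v).decompositionSubgroup ℚ := hφ.mem_decompositionSubgroup
  obtain ⟨x, hx⟩ : ∃ x, ρ φ x ≠ x := by
    by_contra hc
    push Not at hc
    exact h1 (LinearMap.ext hc)
  have hφφ : ρ φ (ρ φ x) = x := LinearMap.congr_fun h2 x
  refine ⟨ρ φ x - x, sub_ne_zero.mpr hx, fun g hg => ?_, φ, hφD, h1⟩
  obtain ⟨L, hL, hρ⟩ := h.smooth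
  obtain ⟨n, σ, hσ, hn⟩ := TWFlat.exists_frob_mul_inertia hp lies hφ hg L
  have h3 : ρ g = ρ (φ ^ n * σ) := by
    have h4 : ρ ((φ ^ n * σ)⁻¹ * g) = 1 := by
      apply hρ
      intro y hy
      rw [AlgEquiv.mul_apply, hn y hy]
      exact (φ ^ n * σ).symm_apply_apply y
    calc ρ g = ρ ((φ ^ n * σ) * ((φ ^ n * σ)⁻¹ * g)) := by rw [mul_inv_cancel_left]
      _ = ρ (φ ^ n * σ) := by rw [map_mul, h4, mul_one]
  have hσ1 : ρ σ = 1 := h.unram v hp hvS _ lies σ hσ
  rw [h3, map_mul, hσ1, mul_one, map_pow]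
  have h5 : ρ φ (ρ φ x - x) = ρ φ x - x := by
    rw [map_sub, hφφ, Sel.sub_eq_add, Sel.sub_eq_add, add_comm]
  clear h3 hn
  induction n with
  | zero => rfl
  | succ n ih =>
    rw [pow_succ]
    show (ρ φ ^ n) (ρ φ (ρ φ x - x)) = _
    rw [h5, ih]

theorem LocFix.eq_or {e : V} (hV : Module.finrank (ZMod 2) V = 2) (hl : LocFix ρ v e) {x : V}
    (hx : ∀ g ∈ (padicPlace v).decompositionSubgroup ℚ, ρ g x = x) : x = 0 ∨ x = e := by
  obtain ⟨g, hg, hg1⟩ := hl.move
  obtain ⟨a, h1, h2, h3, h4, h5, hall⟩ := exists_others hV hl.ne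
  have hge := hl.fix g hg
  have hna : ρ g a ≠ a := by
    intro ha
    apply hg1
    refine LinearMap.ext fun y => ?_
    rw [Module.End.one_apply]
    rcases hall y with rfl | rfl | rfl | rfl
    · exact map_zero _
    · exact hge
    · exact ha
    · rw [map_add, hge, ha]
  have hgx := hx g hg
  rcases hall x with rfl | rfl | rfl | rfl
  · exact Or.inl rfl
  · exact Or.inr rfl
  · exact absurd hgx hna
  · rw [map_add, hge, add_left_inj] at hgx
    exact absurd hgx hna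

theorem LocFix.br_sub {e : V} (hV : Module.finrank (ZMod 2) V = 2) (hl : LocFix ρ v e)
    {g : GQ} (hg : g ∈ (padicPlace v).decompositionSubgroup ℚ) (x : V) :
    br (ρ g x - x) e = 0 := by
  rw [Sel.sub_eq_add, br_add_left hV]
  have h1 : br (ρ g x) e = br x e := by
    conv_lhs => rw [← hl.fix g hg]
    rw [hl.fix g hg]
    calc br (ρ g x) e = br (ρ g x) (ρ g e) := by rw [hl.fix g hg]
      _ = br x e := br_rho ρ g x e
  rw [h1]
  exact CharTwo.add_self_eq_zero _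

theorem LocFix.br_eq_zero {e : V} (hV : Module.finrank (ZMod 2) V = 2) (hl : LocFix ρ v e)
    {f : GQ → V} (hf : LineAt ρ (padicPlace v) f)
    {g : GQ} (hg : g ∈ (padicPlace v).decompositionSubgroup ℚ) : br (f g) e = 0 := by
  obtain ⟨x, hx⟩ := hf
  have h1 := hl.eq_or hV (hx g hg)
  have h2 : br (f g - (ρ g x - x)) e = 0 := by
    rw [br_eq_zero_iff]
    rcases h1 with h | h
    · exact Or.inl h
    · exact Or.inr (Or.inr h)
  have h3 : f g = (f g - (ρ g x - x)) + (ρ g x - x) := by abel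
  rw [h3, br_add_left hV, h2, hl.br_sub hV hg, add_zero]

/-- the square root at the fixed vector is fixed by the decomposition group -/
theorem LocFix.root_fixed {e : V} (hV : Module.finrank (ZMod 2) V = 2) (hl : LocFix ρ v e)
    {f : GQ → V} (hf : LineAt ρ (padicPlace v) f) {β : V → Ω} (hβ : IsRoots ρ f β)
    {g : GQ} (hg : g ∈ (padicPlace v).decompositionSubgroup ℚ) : g (β e) = β e := by
  rw [hβ.eqv, hl.fix g hg, hl.br_eq_zero hV hf hg, sg_zero, one_mul]

/-! ### passage to `ℚ_v` -/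

theorem loc_mem (τ : PadicAlgCl v ≃ₐ[ℚ_[v]] PadicAlgCl v) :
    localGaloisToGlobal v τ ∈ (padicPlace v).decompositionSubgroup ℚ :=
  localGaloisToGlobal_mem_decompositionSubgroup v τ

/-- density of the local Galois group in the decomposition group -/
theorem exists_loc (L : IntermediateField ℚ Ω) [FiniteDimensional ℚ L] {σ : GQ}
    (hσ : σ ∈ (padicPlace v).decompositionSubgroup ℚ) :
    ∃ τ : PadicAlgCl v ≃ₐ[ℚ_[v]] PadicAlgCl v, ∃ u ∈ L.fixingSubgroup,
      σ = localGaloisToGlobal v τ * u := by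
  have h1 : σ ∈ ((1 : GQ) • padicPlace v).decompositionSubgroup ℚ := by rwa [one_smul]
  obtain ⟨τ, u, hu, h2⟩ := TWP.LocalDimP.exists_loc_mul v 1 L σ h1
  exact ⟨τ, u, hu, by rw [h2]; group⟩

theorem fixed_of_loc (h : Hyp ρ S) {e : V}
    (he : ∀ τ : PadicAlgCl v ≃ₐ[ℚ_[v]] PadicAlgCl v, ρ (localGaloisToGlobal v τ) e = e)
    {g : GQ} (hg : g ∈ (padicPlace v).decompositionSubgroup ℚ) : ρ g e = e := by
  obtain ⟨L, hL, hρ⟩ := h.smooth
  obtain ⟨τ, u, hu, rfl⟩ := exists_loc L hg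
  rw [IntermediateField.mem_fixingSubgroup_iff] at hu
  rw [rho_mul_apply, hρ u hu]
  exact he τ

/-- elements of `ℚ̄_v` fixed by Galois are in `ℚ_v` -/
theorem exists_padic_of_loc {x : Ω}
    (hx : ∀ τ : PadicAlgCl v ≃ₐ[ℚ_[v]] PadicAlgCl v, localGaloisToGlobal v τ x = x) :
    ∃ c : ℚ_[v], algebraMap ℚ_[v] (PadicAlgCl v) c = padicEmbedding v x := by
  have h1 : padicEmbedding v x ∈
      IntermediateField.fixedField (⊤ : Subgroup (PadicAlgCl v ≃ₐ[ℚ_[v]] PadicAlgCl v)) := by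
    rw [IntermediateField.mem_fixedField_iff]
    intro τ _
    rw [← padicEmbedding_localGaloisToGlobal, hx]
  rw [InfiniteGalois.fixedField_bot] at h1
  exact h1

theorem loc_of_exists_padic {x : Ω} {c : ℚ_[v]}
    (hc : algebraMap ℚ_[v] (PadicAlgCl v) c = padicEmbedding v x)
    (τ : PadicAlgCl v ≃ₐ[ℚ_[v]] PadicAlgCl v) : localGaloisToGlobal v τ x = x := by
  apply (padicEmbedding v).toRingHom.injective
  change padicEmbedding v _ = padicEmbedding v _
  rw [padicEmbedding_localGaloisToGlobal, ← hc, AlgEquiv.commutes]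

variable (h : Hyp ρ S) {e1 : V} (he1 : e1 ≠ 0)

/-- an embedding of the cubic field in `ℚ_v` comes from a fixed vector -/
theorem exists_vec (i : cub ρ e1 →+* ℚ_[v]) : ∃ e : V, e ≠ 0 ∧
    (∀ g ∈ (padicPlace v).decompositionSubgroup ℚ, ρ g e = e) ∧
    ∀ x : cub ρ e1, algebraMap ℚ_[v] (PadicAlgCl v) (i x) = padicEmbedding v (vemb h he1 e x) := by
  obtain ⟨g, hg⟩ := CFT.W.exists_global v (cub ρ e1)
    ((algebraMap ℚ_[v] (PadicAlgCl v)).comp i)
  have hge := rho_ne_zero ρ g he1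
  have h1 : ∀ x : cub ρ e1,
      algebraMap ℚ_[v] (PadicAlgCl v) (i x) = padicEmbedding v (vemb h he1 (ρ g e1) x) := by
    intro x
    rw [vemb_eq h he1 hge rfl]
    exact hg x
  refine ⟨ρ g e1, hge, fun σ hσ => fixed_of_loc h (fun τ => ?_) hσ, h1⟩
  apply vemb_injective h he1 (rho_ne_zero ρ _ hge) hge
  ext x
  rw [← apply_vemb h he1 hge]
  exact loc_of_exists_padic (h1 x) τ

include h he1 in
/-- a fixed vector gives an embedding in `ℚ_v` -/
theorem exists_emb_of_fixed {e : V} (he : e ≠ 0)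
    (hfix : ∀ g ∈ (padicPlace v).decompositionSubgroup ℚ, ρ g e = e) :
    ∃ i : cub ρ e1 →+* ℚ_[v], ∀ x : cub ρ e1,
      algebraMap ℚ_[v] (PadicAlgCl v) (i x) = padicEmbedding v (vemb h he1 e x) := by
  let ψ : cub ρ e1 →+* PadicAlgCl v :=
    ((padicEmbedding v : Ω →ₐ[ℚ] PadicAlgCl v) : Ω →+* PadicAlgCl v).comp
      (vemb h he1 e : cub ρ e1 →+* Ω)
  have hψ : ∀ x, ψ x ∈ (algebraMap ℚ_[v] (PadicAlgCl v)).range := by
    intro x
    obtain ⟨c, hc⟩ := exists_padic_of_loc (x := vemb h he1 e x) fun τ => by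
      rw [apply_vemb h he1 he, hfix _ (loc_mem τ)]
    exact ⟨c, hc⟩
  let j : ℚ_[v] ≃+* (algebraMap ℚ_[v] (PadicAlgCl v)).range :=
    RingEquiv.ofBijective (algebraMap ℚ_[v] (PadicAlgCl v)).rangeRestrict
      ⟨fun a b hab => (algebraMap ℚ_[v] (PadicAlgCl v)).injective (congrArg Subtype.val hab),
        (algebraMap ℚ_[v] (PadicAlgCl v)).rangeRestrict_surjective⟩
  refine ⟨(j.symm : _ →+* ℚ_[v]).comp (ψ.codRestrict _ hψ), fun x => ?_⟩
  have h1 := j.apply_symm_apply (ψ.codRestrict _ hψ x)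
  exact congrArg Subtype.val h1

include h he1 in
theorem nonempty_emb {e : V} (hl : LocFix ρ v e) : Nonempty (cub ρ e1 →+* ℚ_[v]) :=
  ⟨(exists_emb_of_fixed h he1 hl.ne hl.fix).choose⟩

include h he1 in
theorem emb_unique {e : V} (hl : LocFix ρ v e) (i j : cub ρ e1 →+* ℚ_[v]) : j = i := by
  obtain ⟨a, ha, ha1, ha2⟩ := exists_vec h he1 i
  obtain ⟨b, hb, hb1, hb2⟩ := exists_vec h he1 j
  have h1 := (hl.eq_or h.finrank_eq ha1).resolve_left ha
  have h2 := (hl.eq_or h.finrank_eq hb1).resolve_left hb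
  ext x
  apply (algebraMap ℚ_[v] (PadicAlgCl v)).injective
  rw [ha2, hb2, h1, h2]

include h he1 in
theorem emb_eq_of_fix {e : V} (hl : LocFix ρ v e) (i : cub ρ e1 →+* ℚ_[v]) (x : cub ρ e1) :
    algebraMap ℚ_[v] (PadicAlgCl v) (i x) = padicEmbedding v (vemb h he1 e x) := by
  obtain ⟨a, ha, ha1, ha2⟩ := exists_vec h he1 i
  rw [ha2, (hl.eq_or h.finrank_eq ha1).resolve_left ha]

include h he1 in
/-- **(D3)** the line condition makes `α` a local square -/
theorem isSquare_of_lineAt {e : V} (hl : LocFix ρ v e) {f : GQ → V}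
    (hf : LineAt ρ (padicPlace v) f) {β : V → Ω} (hβ : IsRoots ρ f β)
    (i : cub ρ e1 →+* ℚ_[v]) : IsSquare (i (alph hβ e1)) := by
  obtain ⟨c, hc⟩ := exists_padic_of_loc (x := β e) fun τ =>
    hl.root_fixed h.finrank_eq hf hβ (loc_mem τ)
  refine ⟨c, ?_⟩
  apply (algebraMap ℚ_[v] (PadicAlgCl v)).injective
  rw [emb_eq_of_fix h he1 hl, vemb_alph hβ h he1 hl.ne, map_mul, hc, sq, map_mul]

include h he1 in
/-- **(D6)** if `α` is a local square then `f(φ)` is in the image of `φ - 1` -/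
theorem br_eq_zero_of_isSquare {e : V} (hl : LocFix ρ v e) {f : GQ → V} {β : V → Ω}
    (hβ : IsRoots ρ f β) (i : cub ρ e1 →+* ℚ_[v]) (hi : IsSquare (i (alph hβ e1)))
    {φ : GQ} (hφ : φ ∈ (padicPlace v).decompositionSubgroup ℚ) : br (f φ) e = 0 := by
  obtain ⟨c, hc⟩ := hi
  have h1 := emb_eq_of_fix h he1 hl i (alph hβ e1)
  rw [hc, vemb_alph hβ h he1 hl.ne, map_mul, map_pow, ← sq, sq_eq_sq_iff_eq_or_eq_neg] at h1
  have h2 : ∃ c' : ℚ_[v], algebraMap ℚ_[v] (PadicAlgCl v) c' = padicEmbedding v (β e) := by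
    rcases h1 with h1 | h1
    · exact ⟨c, h1⟩
    · exact ⟨-c, by rw [map_neg, h1, neg_neg]⟩
  obtain ⟨c', hc'⟩ := h2
  have hβi : IsIntegral ℚ (β e) := Algebra.IsIntegral.isIntegral _
  let L : IntermediateField ℚ Ω := IntermediateField.adjoin ℚ {β e}
  have hL : FiniteDimensional ℚ L := IntermediateField.adjoin.finiteDimensional hβi
  obtain ⟨τ, u, hu, h3⟩ := exists_loc L hφ
  rw [IntermediateField.mem_fixingSubgroup_iff] at hu
  have h4 : φ (β e) = β e := by
    rw [h3, AlgEquiv.mul_apply, hu _ (IntermediateField.mem_adjoin_simple_self ℚ (β e))]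
    exact loc_of_exists_padic hc' τ
  rw [hβ.eqv, hl.fix φ hφ] at h4
  have h5 : (sg (br (f φ) e) : Ω) = 1 := by
    have := mul_right_cancel₀ (hβ.ne e) (h4.trans (one_mul _).symm)
    exact this
  exact (sg_eq_one_iff _).mp h5

end

end Fermat.Agent.P2.Dict
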