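import Mathlib
import Fermat.Agent.P2.Dict.Local
import Fermat.Agent.P2.Conic.Defs

/-!
# P2, block 2b (dictionary): unramified cocycles and even valuations; the real place
-/

set_option autoImplicit false
set_option linter.unusedSectionVars false

noncomputable section

namespace Fermat.Agent.P2.Dict

open Fermat.Agent.P2.Sel NumberField IsDedekindDomain Pointwise
open Fermat.Agent.CFT.W (emb pl)

local notation "Ω" => AlgebraicClosure ℚ

variable {V : Type} [AddCommGroup V] [Module (ZMod 2) V]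
variable {ρ : Representation (ZMod 2) GQ V} {S : Finset ℕ}

section

variable {v : ℕ} [hv : Fact v.Prime]

theorem norm_eq_one_of_valuation {x : Ω} (hx : (padicPlace v).valuation x = 1) :
    ‖padicEmbedding v x‖ = 1 := by
  have hx0 : x ≠ 0 := by
    rintro rfl
    rw [map_zero] at hx
    exact zero_ne_one hx
  have h1 : x ∈ padicPlace v := by
    rw [← ValuationSubring.valuation_le_one_iff, hx]
  have h2 : x⁻¹ ∈ padicPlace v := by
    rw [← ValuationSubring.valuation_le_one_iff, map_inv₀, hx, inv_one]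
  rw [mem_padicPlace_iff] at h1 h2
  rw [map_inv₀, nnnorm_inv] at h2
  have h3 : 0 < ‖padicEmbedding v x‖₊ := by
    rw [nnnorm_pos]
    exact (map_ne_zero _).mpr hx0
  have h4 : 1 ≤ ‖padicEmbedding v x‖₊ := (inv_le_one₀ h3).mp h2
  have h5 := le_antisymm h1 h4
  have h6 : ((‖padicEmbedding v x‖₊ : NNReal) : ℝ) = 1 := by rw [h5]; rfl
  exact h6

theorem mem_nonunits_iff {x : Ω} :
    x ∈ (padicPlace v).nonunits ↔ ‖padicEmbedding v x‖ < 1 := by
  rw [ValuationSubring.mem_nonunits_iff_or]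
  constructor
  · rintro (rfl | h)
    · rw [map_zero, norm_zero]; exact one_pos
    · rw [mem_padicPlace_iff, map_inv₀, nnnorm_inv, not_le] at h
      have hx : ‖padicEmbedding v x‖₊ < 1 := by
        by_contra hcon
        exact absurd h (not_lt.mpr (inv_le_one_of_one_le₀ (not_lt.mp hcon)))
      exact_mod_cast hx
  · intro h
    rcases eq_or_ne x 0 with rfl | hx0
    · exact Or.inl rfl
    · right
      have h0 : 0 < ‖padicEmbedding v x‖₊ := by
        rw [nnnorm_pos]
        exact (map_ne_zero _).mpr hx0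
      rw [mem_padicPlace_iff, map_inv₀, nnnorm_inv, not_le]
      exact (one_lt_inv₀ h0).mpr (by exact_mod_cast h)

theorem norm_two (hv2 : v ≠ 2) : ‖(2 : PadicAlgCl v)‖ = 1 := by
  have h1 := PadicAlgCl.norm_extends v ((2 : ℕ) : ℚ_[v])
  have h2 : ‖((2 : ℕ) : ℚ_[v])‖ = 1 := by
    rw [Padic.norm_natCast_eq_one_iff]
    rw [Nat.coprime_primes hv.out Nat.prime_two]
    exact hv2
  rw [h2, map_natCast] at h1
  exact_mod_cast h1

/-- **(D4)** -/
theorem evenAt_of_unr (h : Hyp ρ S) {e1 : V} [NumberField (cub ρ e1)]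
    (hvS : v ∉ S) {f : GQ → V} (hf : UnrAt (padicPlace v) f) {β : V → Ω} (hβ : IsRoots ρ f β) :
    Conic.EvenAt v (alph hβ e1) := by
  have hfd := finiteDimensional_cub h e1
  intro 𝔭 h𝔭
  obtain ⟨g, rfl⟩ := CFT.W.exists_pl_emb_eq v (cub ρ e1) 𝔭 h𝔭
  set e := ρ g e1 with he
  have hfix : ∀ σ ∈ (padicPlace v).inertiaSubgroupIn ℚ, σ (β e) = β e := by
    intro σ hσ
    rw [hβ.eqv, hf σ hσ, br_zero_left, sg_zero, one_mul, h.unram v hv.out hvS _ lies σ hσ]
    rfl
  obtain ⟨n, hn⟩ := DR.InertiaValue.exists_zpow_of_inertia_fixed (padicPlace v) hv.out lies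
    (hβ.ne e) hfix
  have hnorm := norm_eq_one_of_valuation hn
  have hg : ∀ x : cub ρ e1, emb v (cub ρ e1) g x = padicEmbedding v (g x) := fun x => rfl
  have hgα : g ((alph hβ e1 : cub ρ e1) : Ω) = β e ^ 2 := sq_eqv hβ g e1
  have hnorm2 : ‖emb v (cub ρ e1) g (alph hβ e1 * ((v : cub ρ e1) ^ n) ^ 2)‖ = 1 := by
    have h0 : emb v (cub ρ e1) g (((v : cub ρ e1) ^ n) ^ 2) = ((v : PadicAlgCl v) ^ n) ^ 2 := by
      rw [map_pow, map_zpow₀, map_natCast]
    rw [map_mul, h0, hg, hgα, map_pow, ← mul_pow, norm_pow]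
    rw [map_mul, map_zpow₀, map_natCast] at hnorm
    rw [hnorm, one_pow]
  rw [← CFT.W.pl_valuation_eq_one_iff, map_mul, map_pow, map_zpow₀] at hnorm2
  have hv0 : (pl (emb v (cub ρ e1) g)).valuation (cub ρ e1) (v : cub ρ e1) ≠ 0 := by
    rw [Ne, Valuation.zero_iff]
    exact_mod_cast hv.out.ne_zero
  set m := WithZero.log ((pl (emb v (cub ρ e1) g)).valuation (cub ρ e1) (v : cub ρ e1)) with hm
  have hvm : (pl (emb v (cub ρ e1) g)).valuation (cub ρ e1) (v : cub ρ e1) = WithZero.exp m :=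
    (WithZero.exp_log hv0).symm
  refine ⟨-(n * m), ?_⟩
  rw [hvm] at hnorm2
  have h1 : ((WithZero.exp m : WithZero (Multiplicative ℤ)) ^ n) ^ 2 = WithZero.exp (2 * (n * m)) := by
    rw [← WithZero.exp_zsmul, ← WithZero.exp_nsmul]
    congr 1
  rw [h1] at hnorm2
  rw [eq_comm, show (2 * -(n * m) : ℤ) = -(2 * (n * m)) by ring, WithZero.exp_neg]
  exact inv_eq_of_mul_eq_one_left hnorm2

/-- **(D5)** -/
theorem unr_of_evenAt (h : Hyp ρ S) {e1 : V} (he1 : e1 ≠ 0) [NumberField (cub ρ e1)]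
    (hv2 : v ≠ 2) (hvS : v ∉ S) {f : GQ → V} {β : V → Ω} (hβ : IsRoots ρ f β)
    (heven : Conic.EvenAt v (alph hβ e1)) : UnrAt (padicPlace v) f := by
  intro t ht
  have ht1 : ρ t = 1 := h.unram v hv.out hvS _ lies t ht
  apply eq_zero_of_br h.finrank_eq
  intro e
  by_cases he : e = 0
  · rw [he, br_zero_right]
  by_contra hbr
  have hbr1 : br (f t) e = 1 := (zmod2_cases _).resolve_left hbr
  have hte : ρ t e = e := by rw [ht1]; rfl
  set φ := emb v (cub ρ e1) (mover h he1 e) with hφ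
  have hφe : ∀ x : cub ρ e1, φ x = padicEmbedding v (vemb h he1 e x) := fun x => rfl
  obtain ⟨n, hn⟩ := heven (pl φ) (CFT.W.natCast_mem_pl φ)
  obtain ⟨π, hπ⟩ := (pl φ).valuation_exists_uniformizer (cub ρ e1)
  set y : Ω := β e * (vemb h he1 e π) ^ n with hy
  have hy2 : ‖padicEmbedding v y‖ = 1 := by
    have h1 : (pl φ).valuation (cub ρ e1) (alph hβ e1 * (π ^ n) ^ 2) = 1 := by
      rw [map_mul, hn, map_pow, map_zpow₀, hπ, ← WithZero.exp_zsmul, ← WithZero.exp_nsmul,
        ← WithZero.exp_add, WithZero.exp_eq_one]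
      simp only [smul_eq_mul, nsmul_eq_mul]
      push_cast
      ring
    rw [CFT.W.pl_valuation_eq_one_iff, hφe, map_mul, vemb_alph hβ h he1 he, map_pow, map_zpow₀,
      ← mul_pow, ← hy, map_pow, norm_pow] at h1
    exact (pow_eq_one_iff_of_nonneg (norm_nonneg _) two_ne_zero).mp h1
  have hty : t y = -y := by
    rw [hy, map_mul, hβ.eqv, hte, hbr1, sg_one, map_zpow₀, apply_vemb h he1 he, hte]
    ring
  have hymem : y ∈ padicPlace v := by
    rw [mem_padicPlace_iff]
    exact_mod_cast hy2.le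
  have h2 := ((TWP.Place.mem_inertiaSubgroupIn_iff (padicPlace v) t).mp ht).2 y hymem
  rw [hty, mem_nonunits_iff] at h2
  have h3 : padicEmbedding v (-y - y) = -(2 * padicEmbedding v y) := by
    rw [map_sub, map_neg]; ring
  rw [h3, norm_neg, norm_mul, norm_two hv2, hy2, one_mul] at h2
  exact lt_irrefl _ h2

end

/-! ### the real place -/

/-- a nontrivial automorphism fixes at most one nonzero vector -/
theorem fixed_eq_or (hV : Module.finrank (ZMod 2) V = 2) {T : V →ₗ[ZMod 2] V} (hT : T ≠ 1)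
    {e : V} (he : e ≠ 0) (hTe : T e = e) {x : V} (hx : T x = x) : x = 0 ∨ x = e := by
  obtain ⟨a, h1, h2, h3, h4, h5, hall⟩ := exists_others hV he
  have hna : T a ≠ a := by
    intro ha
    apply hT
    refine LinearMap.ext fun y => ?_
    rw [Module.End.one_apply]
    rcases hall y with rfl | rfl | rfl | rfl
    · exact map_zero _
    · exact hTe
    · exact ha
    · rw [map_add, hTe, ha]
  rcases hall x with rfl | rfl | rfl | rfl
  · exact Or.inl rfl
  · exact Or.inr rfl
  · exact absurd hx hna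
  · rw [map_add, hTe, add_left_inj] at hx
    exact absurd hx hna

/-- Every embedding of a subfield of `ℚ̄` in `ℂ` is induced by `complexEmbedding ∘ g`. -/
theorem exists_global_complex (L : IntermediateField ℚ Ω) (φ : L →+* ℂ) :
    ∃ g : GQ, ∀ x : L, φ x = complexEmbedding (g x) := by
  let : Algebra L ℂ := φ.toAlgebra
  have : Algebra.IsAlgebraic L Ω := Algebra.IsAlgebraic.tower_top (K := ℚ) L
  let ψ : Ω →ₐ[L] ℂ := IsAlgClosed.lift
  let ψ' : Ω →ₐ[ℚ] ℂ := (ψ : Ω →+* ℂ).toRatAlgHom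
  let : Algebra Ω ℂ := complexEmbedding.toRingHom.toAlgebra
  have : IsScalarTower ℚ Ω ℂ := IsScalarTower.of_algebraMap_eq' (Subsingleton.elim _ _)
  let g : Ω →ₐ[ℚ] Ω := ψ'.restrictNormal Ω
  have hg : Function.Bijective g := Algebra.IsAlgebraic.algHom_bijective g
  refine ⟨AlgEquiv.ofBijective g hg, fun x => ?_⟩
  have h1 : complexEmbedding (g x) = ψ' x := AlgHom.restrictNormal_commutes ψ' Ω x
  have h2 : ψ' (x : Ω) = φ x := ψ.commutes x
  rw [← h2, ← h1]
  rfl

theorem exists_vec_complex (h : Hyp ρ S) {e1 : V} (he1 : e1 ≠ 0) (φ : cub ρ e1 →+* ℂ) :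
    ∃ e : V, e ≠ 0 ∧ ∀ x : cub ρ e1, φ x = complexEmbedding (vemb h he1 e x) := by
  obtain ⟨g, hg⟩ := exists_global_complex (cub ρ e1) φ
  have hge := rho_ne_zero ρ g he1
  exact ⟨ρ g e1, hge, fun x => by rw [vemb_eq h he1 hge rfl, hg]⟩

theorem nrRealPlaces_cub (h : Hyp ρ S) {e1 : V} (he1 : e1 ≠ 0) [NumberField (cub ρ e1)] :
    InfinitePlace.nrRealPlaces (cub ρ e1) = 1 := by
  classical
  rw [← InfinitePlace.card_real_embeddings, Fintype.card_eq_one_iff]
  -- the fixed vector of complex conjugation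
  have hc1 := h.conj
  obtain ⟨x, hx⟩ : ∃ x, ρ complexConjugation x ≠ x := by
    by_contra hc
    push Not at hc
    exact hc1 (LinearMap.ext hc)
  set e := ρ complexConjugation x - x with he
  have he0 : e ≠ 0 := sub_ne_zero.mpr hx
  have hcc : ρ complexConjugation (ρ complexConjugation x) = x := by
    rw [← rho_mul_apply, complexConjugation_mul_self, map_one]; rfl
  have hce : ρ complexConjugation e = e := by
    rw [he, map_sub, hcc, Sel.sub_eq_add, Sel.sub_eq_add, add_comm]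
  have hreal : ∀ (φ : cub ρ e1 →+* ℂ) (a : V), a ≠ 0 →
      (∀ y : cub ρ e1, φ y = complexEmbedding (vemb h he1 a y)) →
      (ComplexEmbedding.IsReal φ ↔ ρ complexConjugation a = a) := by
    intro φ a ha hφ
    have h1 : ∀ y : cub ρ e1, ComplexEmbedding.conjugate φ y =
        complexEmbedding (vemb h he1 (ρ complexConjugation a) y) := by
      intro y
      rw [ComplexEmbedding.conjugate_coe_eq, hφ, ← complexEmbedding_complexConjugation,
        apply_vemb h he1 ha]
    rw [ComplexEmbedding.isReal_iff]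
    constructor
    · intro h2
      apply vemb_injective h he1 (rho_ne_zero ρ _ ha) ha
      ext y
      apply complexEmbedding.toRingHom.injective
      change complexEmbedding _ = complexEmbedding _
      rw [← h1, ← hφ, h2]
    · intro h2
      ext y
      rw [h1, h2, hφ]
  let φ₀ : cub ρ e1 →+* ℂ := (complexEmbedding : Ω →+* ℂ).comp (vemb h he1 e : cub ρ e1 →+* Ω)
  have hφ₀ : ∀ y : cub ρ e1, φ₀ y = complexEmbedding (vemb h he1 e y) := fun y => rfl
  refine ⟨⟨φ₀, (hreal φ₀ e he0 hφ₀).mpr hce⟩, ?_⟩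
  rintro ⟨φ, hφ⟩
  obtain ⟨a, ha, hφa⟩ := exists_vec_complex h he1 φ
  have h2 := (hreal φ a ha hφa).mp hφ
  have h3 := (fixed_eq_or h.finrank_eq hc1 he0 hce h2).resolve_left ha
  apply Subtype.ext
  ext y
  rw [hφa, h3]
  rfl

end Fermat.Agent.P2.Dict
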