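import Mathlib
import Fermat.Agent.P2.Dict.Even

/-!
# P2, block 2b (dictionary): isotropy from the conic reciprocity
-/

set_option autoImplicit false
set_option linter.unusedSectionVars false

noncomputable section

namespace Fermat.Agent.P2.Dict

open Fermat.Agent.P2.Sel NumberField IsDedekindDomain Pointwise Polynomial

local notation "Ω" => AlgebraicClosure ℚ

variable {V : Type} [AddCommGroup V] [Module (ZMod 2) V]
variable {ρ : Representation (ZMod 2) GQ V} {S : Finset ℕ}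

/-- A cubic polynomial whose roots are permuted as the nonzero vectors of `V`, with discriminant
prime to all primes outside `S`. -/
structure CubData (ρ : Representation (ZMod 2) GQ V) (S : Finset ℕ) where
  f : ℤ[X]
  monic : f.Monic
  natDegree : f.natDegree = 3
  disc : ∀ v : ℕ, v.Prime → v ∉ S → ¬ (v : ℤ) ∣ f.discr
  θ : V → Ω
  root : ∀ e, e ≠ 0 → aeval (θ e) f = 0
  inj : ∀ e e', e ≠ 0 → e' ≠ 0 → θ e = θ e' → e = e'
  eqv : ∀ (g : GQ) (e : V), e ≠ 0 → g (θ e) = θ (ρ g e)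

namespace CubData

variable (C : CubData ρ S) {e1 : V} (he1 : e1 ≠ 0)

/-- the root in the cubic field -/
def gen : cub ρ e1 := ⟨C.θ e1, by
  rw [mem_cub]
  intro g hg
  rw [C.eqv g e1 he1, hg]⟩

theorem aeval_gen : aeval (C.gen he1) C.f = 0 := by
  have h1 := C.root e1 he1
  have h2 : aeval (algebraMap (cub ρ e1) Ω (C.gen he1)) C.f =
      algebraMap (cub ρ e1) Ω (aeval (C.gen he1) C.f) := aeval_algebraMap_apply _ _ _
  have h3 : aeval (algebraMap (cub ρ e1) Ω (C.gen he1)) C.f = 0 := h1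
  rw [h2] at h3
  exact (map_eq_zero_iff _ (algebraMap (cub ρ e1) Ω).injective).mp h3

theorem isIntegral_gen : IsIntegral ℤ (C.gen he1) := ⟨C.f, C.monic, C.aeval_gen he1⟩

theorem vemb_gen (h : Hyp ρ S) {e : V} (he : e ≠ 0) : vemb h he1 e (C.gen he1) = C.θ e := by
  rw [vemb_apply]
  have h1 := C.eqv (mover h he1 e) e1 he1
  rw [mover_spec h he1 he] at h1
  exact h1

theorem adjoin_gen (h : Hyp ρ S) : IntermediateField.adjoin ℚ {C.gen he1} = ⊤ := by
  have hfd := finiteDimensional_cub h e1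
  rw [Field.primitive_element_iff_algHom_eq_of_eval' ℚ Ω
    (fun x => IsAlgClosed.splits _) (C.gen he1)]
  intro σ τ hστ
  obtain ⟨a, ha, rfl⟩ := vemb_surjective h he1 σ
  obtain ⟨b, hb, rfl⟩ := vemb_surjective h he1 τ
  simp only at hστ
  rw [C.vemb_gen he1 h ha, C.vemb_gen he1 h hb] at hστ
  rw [C.inj a b ha hb hστ]

theorem minpoly_gen (h : Hyp ρ S) : minpoly ℤ (C.gen he1) = C.f := by
  have hfd := finiteDimensional_cub h e1
  have hint := C.isIntegral_gen he1
  have hdeg : (minpoly ℤ (C.gen he1)).natDegree = 3 := by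
    have h1 := minpoly.isIntegrallyClosed_eq_field_fractions' ℚ hint
    have h2 : (minpoly ℚ (C.gen he1)).natDegree = 3 := by
      rw [← finrank_cub h he1]
      exact (Field.primitive_element_iff_minpoly_natDegree_eq ℚ (C.gen he1)).mp (C.adjoin_gen he1 h)
    rw [h1, (minpoly.monic hint).natDegree_map] at h2
    exact h2
  have hdvd := minpoly.isIntegrallyClosed_dvd hint (C.aeval_gen he1)
  refine (eq_of_monic_of_dvd_of_natDegree_le (minpoly.monic hint) C.monic hdvd ?_).symm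
  rw [hdeg, C.natDegree]

end CubData

/-- **Isotropy from the conic reciprocity.** -/
theorem iso_of_conic (hC : Conic.ConicIso) (h : Hyp ρ S) (C : CubData ρ S) : Iso ρ S := by
  have hV := h.finrank_eq
  intro Q q hQ hq hqQ v hv hvφ w hw
  obtain ⟨hv1, hv2, hv3, hv4⟩ := hv
  obtain ⟨hw1, hw2, hw3, hw4⟩ := hw
  have hqp := hq.1
  have hqS := hq.2.1
  have hfact : Fact q.Prime := ⟨hqp⟩
  have hq2 : q ≠ 2 := by
    rintro rfl
    exact hqS h.two_mem
  obtain ⟨e1, he1⟩ : ∃ e1 : V, e1 ≠ 0 := by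
    have : Nontrivial V := by
      have := card_V hV
      have hf := finite_V' hV
      rw [← Finite.one_lt_card_iff_nontrivial]
      omega
    exact exists_ne 0
  have hfd := finiteDimensional_cub h e1
  have hnf : NumberField (cub ρ e1) := CFT.W.instNumberFieldL (cub ρ e1)
  obtain ⟨βv, hβv⟩ := exists_beta h hv1 hv2
  obtain ⟨βw, hβw⟩ := exists_beta h hw1 hw2
  obtain ⟨e, hl⟩ := locFix_trans (v := q) h hq
  -- the places in `T`
  have hT : ∀ ℓ : ℕ, ∀ [Fact ℓ.Prime], (ℓ ∈ S ∨ ℓ ∈ Q) → ∃ e, LocFix ρ ℓ e := by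
    intro ℓ _ hℓ
    rcases hℓ with hℓ | hℓ
    · exact locFix_bad h hℓ
    · exact locFix_trans h (hQ ℓ hℓ)
  obtain ⟨i⟩ := nonempty_emb h he1 hl
  have hnotsq : ¬ IsSquare (i (alph hβv e1)) := by
    intro hsq
    obtain ⟨P, hP, φ, hφ, hne⟩ := hvφ
    obtain ⟨g, rfl⟩ := FrobExists.exists_smul_eq (padicPlace q) P hqp lies hP
    have hφD := TWP.Place.decomposition_conj g⁻¹ hφ.mem_decompositionSubgroup
    rw [inv_smul_smul, inv_inv] at hφD
    have hbr := br_eq_zero_of_isSquare h he1 hl hβv i hsq hφD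
    have hφ0 : (padicPlace q).IsFrobeniusAt (g⁻¹ * φ * g) q := by
      have := TWP.Place.isFrobeniusAt_conj g⁻¹ hφ
      rwa [inv_smul_smul, inv_inv] at this
    obtain ⟨h1, h2⟩ := hq.2.2 _ lies _ hφ0
    -- `v φ₀` is in the image of `φ₀ - 1`
    have h3 : ∃ x, v (g⁻¹ * φ * g) = ρ (g⁻¹ * φ * g) x - x := by
      rw [br_eq_zero_iff] at hbr
      rcases hbr with h4 | h4 | h4
      · exact ⟨0, by rw [h4, map_zero, sub_zero]⟩
      · exact absurd h4 hl.ne
      · obtain ⟨x, hx⟩ : ∃ x, ρ (g⁻¹ * φ * g) x ≠ x := by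
          by_contra hc
          push Not at hc
          exact h1 (LinearMap.ext hc)
        refine ⟨x, ?_⟩
        have h5 := hl.br_sub hV hφD x
        rw [br_eq_zero_iff] at h5
        rcases h5 with h5 | h5 | h5
        · exact absurd h5 (sub_ne_zero.mpr hx)
        · exact absurd h5 hl.ne
        · rw [h4, h5]
    obtain ⟨x, hx⟩ := h3
    have h6 : φ = g * (g⁻¹ * φ * g) * g⁻¹ := by group
    have h7 : v φ = ρ g (v (g⁻¹ * φ * g)) + (v g - ρ φ (v g)) := by
      conv_lhs => rw [h6]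
      rw [hv1.conj, ← h6]
    have h8 : ρ g (ρ (g⁻¹ * φ * g) x) = ρ φ (ρ g x) := by
      rw [← rho_mul_apply, ← rho_mul_apply]
      congr 2
      group
    apply hne (ρ g x - v g)
    rw [h7, hx, map_sub, h8, map_sub]
    abel
  have hαq : Conic.EvenAt q (alph hβv e1) :=
    evenAt_of_unr h hqS (hv3 q hqp trivial hqS hqQ _ lies) hβv
  have hα : Conic.IsSel ((S : Set ℕ) ∪ Q) q (alph hβv e1) :=
    { ne_zero := alph_ne_zero hβv e1
      norm := norm_alph hβv h he1
      sq := by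
        intro ℓ _ hℓ j
        obtain ⟨e', hl'⟩ := hT ℓ hℓ
        exact isSquare_of_lineAt h he1 hl' (hv4 ℓ trivial hℓ _ lies) hβv j
      even := by
        intro ℓ hℓ hℓT hℓq
        have : Fact ℓ.Prime := ⟨hℓ⟩
        have hℓS : ℓ ∉ S := fun h' => hℓT (Or.inl h')
        have hℓQ : ℓ ∉ Q := fun h' => hℓT (Or.inr h')
        exact evenAt_of_unr h hℓS (hv3 ℓ hℓ trivial hℓS hℓQ _ lies) hβv }
  have hqT : q ∉ ((S : Set ℕ) ∪ Q) := by
    rintro (h' | h')
    · exact hqS h'
    · exact hqQ h'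
  have hβ : Conic.IsSel ((S : Set ℕ) ∪ Q) q (alph hβw e1) :=
    { ne_zero := alph_ne_zero hβw e1
      norm := norm_alph hβw h he1
      sq := by
        intro ℓ _ hℓ j
        obtain ⟨e', hl'⟩ := hT ℓ hℓ
        have hℓq : ℓ ≠ q := by
          rintro rfl
          exact hqT hℓ
        exact isSquare_of_lineAt h he1 hl' (hw4 ℓ hℓq hℓ _ lies) hβw j
      even := by
        intro ℓ hℓ hℓT hℓq
        have : Fact ℓ.Prime := ⟨hℓ⟩
        have hℓS : ℓ ∉ S := fun h' => hℓT (Or.inl h')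
        have hℓQ : ℓ ∉ Q := fun h' => hℓT (Or.inr h')
        exact evenAt_of_unr h hℓS (hw3 ℓ hℓ hℓq hℓS hℓQ _ lies) hβw }
  have hfinal : Conic.EvenAt q (alph hβw e1) :=
    hC (cub ρ e1) (finrank_cub h he1) (nrRealPlaces_cub h he1) (C.gen he1)
      (C.isIntegral_gen he1) (C.adjoin_gen he1 h) ((S : Set ℕ) ∪ Q) (Or.inl h.two_mem)
      (by
        intro ℓ hℓ hℓT hdv
        refine C.disc ℓ hℓ (fun h' => hℓT (Or.inl h')) ?_
        rw [← C.minpoly_gen he1 h]
        convert hdv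
        exact Subsingleton.elim _ _)
      (by
        intro ℓ _ hℓ
        obtain ⟨e', hl'⟩ := hT ℓ hℓ
        exact nonempty_emb h he1 hl')
      q hqT i (fun j => emb_unique h he1 hl i j) (alph hβv e1) (alph hβw e1) hα hβ hαq hnotsq
  intro P hP
  exact unrAt_of_place h hw1 hqp hqS lies hP (unr_of_evenAt h he1 hq2 hqS hβw hfinal)

end Fermat.Agent.P2.Dict
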